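/-
P-CFT / LOCAL row 832 (INV-COR), helper12.

`InvCorStatement` : any "corestriction" (multiplicative on 2-cochains, preserving level
coboundaries, with `cor (res c) ~ c ^ [E' : E]`) preserves the invariant of `p`-primary classes.
Formal consequence of `InvRes`, `InvPeriod`, `InvDescend`, `InvMul`.
-/
import Fermat.Agent.H78.CFT.LocalInvRows
import Fermat.Agent.H81.Local.Infl
import Fermat.Agent.H81.Local.EFBase
import Fermat.Agent.H75.Inf2Lvl
import Fermat.Agent.H61.CFT.UnramBrauer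

set_option autoImplicit false
set_option synthInstance.maxHeartbeats 400000

noncomputable section

namespace Fermat.Agent.H12.CftInv

open Fermat.Agent.H13.Cft groupCohomology
open Fermat.Agent.H78.CFT Fermat.Agent.H49.Unram Fermat.Agent.H61.CFT Fermat.Agent.H81.Local

/-! ### Level functions and cocycles -/

/-- Inflations from a finite normal extension are level functions. -/
theorem isLvlFun₂_inflE (E : IntermediateField ℚ Qb) (F : IntermediateField E Qb)
    [FiniteDimensional E F] [Normal E F] (c : (F ≃ₐ[E] F) × (F ≃ₐ[E] F) → Fˣ) :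
    IsLvlFun₂ (lvlE E) (inflE E F c) := by
  refine ⟨(resEF E F).ker, ker_resEF_mem_lvlE E F, fun g h n hn m hm => ?_⟩
  show Units.map (algebraMap F Qb : F →* Qb) (c (resEF E F (g * n), resEF E F (h * m)))
    = Units.map (algebraMap F Qb : F →* Qb) (c (resEF E F g, resEF E F h))
  rw [map_mul, map_mul, MonoidHom.mem_ker.1 hn, MonoidHom.mem_ker.1 hm, mul_one, mul_one]

theorem isLvlFun₂_zpow {G : Type} [Group G] (𝒰 : LevelSys G) {c : G × G → Qbˣ}
    (hc : IsLvlFun₂ 𝒰 c) (k : ℤ) : IsLvlFun₂ 𝒰 (fun x => c x ^ k) := by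
  obtain ⟨N, hN, h⟩ := hc
  exact ⟨N, hN, fun g g' n hn m hm => by
    show c (g * n, g' * m) ^ k = c (g, g') ^ k
    rw [h g g' n hn m hm]⟩

theorem isMulCocycle₂E_zpow {E : IntermediateField ℚ Qb}
    {c : E.fixingSubgroup × E.fixingSubgroup → Qbˣ} (hc : IsMulCocycle₂E E c) (k : ℤ) :
    IsMulCocycle₂E E (fun x => c x ^ k) := by
  intro g h j
  show c (g * h, j) ^ k * c (g, h) ^ k
    = actU (g : Qb ≃ₐ[ℚ] Qb) (c (h, j) ^ k) * c (g, h * j) ^ k
  rw [map_zpow, ← mul_zpow, ← mul_zpow, hc g h j]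

section unram

variable {q : ℕ} [Fact q.Prime] {E : IntermediateField ℚ Qb} {m : ℕ}
  {φ : unramExt q E m ≃ₐ[E] unramExt q E m}

theorem isLvlFun₂_unramCocycle (hφ : IsFrobE q E m φ) (a : Eˣ) :
    IsLvlFun₂ (lvlE E) (unramCocycle q E m φ a) := by
  have hfd : FiniteDimensional E (unramExt q E m) := hφ.finiteDimensional
  exact isLvlFun₂_inflE E (unramExt q E m) _

theorem isMulCocycle₂E_unramCocycle (hφ : IsFrobE q E m φ) (a : Eˣ) :
    IsMulCocycle₂E E (unramCocycle q E m φ a) := by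
  have hfd : FiniteDimensional E (unramExt q E m) := hφ.finiteDimensional
  have hgal : IsGalois E (unramExt q E m) := hφ.isGalois
  have hgen : IsGen φ := isGen_of_forall_mem_zpowers hφ.gen
  have hc : IsMulCocycle₂ (stdCocycle φ (unitOfE q E m a)) :=
    isMulCocycle₂_stdCocycle_unitsIncl hgen a
  intro g h j
  exact Fermat.Agent.H75.Inf2.inflE_cocycle E (unramExt q E m) _ hc g h j

/-- The powers of the unramified cocycle have the obvious invariant. -/
theorem hasInv_unramCocycle_zpow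
    (hφ : IsFrobE q E m φ) (π : Eˣ) (hπ' : IsUnif q E ((π : E) : Qb)) (k : ℤ) :
    HasInv q E (fun x => unramCocycle q E m φ π x ^ k) k m := by
  refine ⟨π, φ, hπ', hφ, ?_⟩
  have e : (fun x => unramCocycle q E m φ π x ^ k / unramCocycle q E m φ π x ^ k)
      = fun _ => (1 : Qbˣ) := by
    funext x
    exact div_self' _
  rw [e]
  exact isLvlMulCoboundary₂E_one E

theorem hasInv_mul_coboundary {c b : E.fixingSubgroup × E.fixingSubgroup → Qbˣ} {j : ℤ}
    (hc : HasInv q E c j m) (hb : IsLvlMulCoboundary₂E E b) :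
    HasInv q E (fun x => b x * c x) j m := by
  obtain ⟨π, φ, hπ, hφ, h⟩ := hc
  refine ⟨π, φ, hπ, hφ, ?_⟩
  have e : (fun x => b x * c x / unramCocycle q E m φ π x ^ j)
      = fun x => b x * (c x / unramCocycle q E m φ π x ^ j) := by
    funext x
    rw [mul_div_assoc]
  rw [e]
  exact hb.mul h

theorem hasInv_inv {c : E.fixingSubgroup × E.fixingSubgroup → Qbˣ} {j : ℤ}
    (hc : HasInv q E c j m) : HasInv q E (fun x => (c x)⁻¹) (-j) m := by
  obtain ⟨π, φ, hπ, hφ, h⟩ := hc
  refine ⟨π, φ, hπ, hφ, ?_⟩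
  have e : (fun x => (c x)⁻¹ / unramCocycle q E m φ π x ^ (-j))
      = fun x => (c x / unramCocycle q E m φ π x ^ j)⁻¹ := by
    funext x
    rw [zpow_neg, inv_div_inv, inv_div]
  rw [e]
  exact h.inv

end unram

/-! ### Degrees -/

theorem relfinrank_ne_zero_of_isLocalFinite {q : ℕ} [Fact q.Prime]
    {E E' : IntermediateField ℚ Qb} (h : E ≤ E') (hE : IsLocalFinite q E)
    (hE' : IsLocalFinite q E') : IntermediateField.relfinrank E E' ≠ 0 := by
  have hfd := hE'.finiteDimensional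
  have h1 : IntermediateField.relfinrank (localField q) E' ≠ 0 := by
    rw [IntermediateField.relfinrank_eq_finrank_of_le hE'.le]
    exact (Module.finrank_pos (R := localField q)
      (M := IntermediateField.extendScalars hE'.le)).ne'
  have h2 := IntermediateField.relfinrank_mul_relfinrank hE.le h
  intro h0
  rw [h0, mul_zero] at h2
  exact h1 h2.symm

/-- The arithmetic of the exponents. -/
theorem exists_exponents (p : ℕ) [Fact p.Prime] (n d : ℕ) (hd : d ≠ 0) :
    ∃ (a : ℕ) (t : ℤ), ((p ^ (n + a) : ℕ) : ℤ) ∣ (d : ℤ) * t - (p : ℤ) ^ a := by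
  have hp : p.Prime := Fact.out
  obtain ⟨a, d', hd', rfl⟩ := Nat.exists_eq_pow_mul_and_not_dvd hd p hp.ne_one
  have hcop : IsCoprime (d' : ℤ) ((p ^ (n + a) : ℕ) : ℤ) := by
    rw [Int.isCoprime_iff_gcd_eq_one, Int.gcd_natCast_natCast]
    exact Nat.Coprime.pow_right _ ((Nat.Prime.coprime_iff_not_dvd hp).mpr hd').symm
  obtain ⟨x, y, hxy⟩ := hcop
  refine ⟨a, x, ⟨-(y * (p : ℤ) ^ a), ?_⟩⟩
  push_cast at hxy ⊢
  linear_combination ((p : ℤ) ^ a) * hxy

/-! ### The statement -/

/-- **[INV-COR]**. -/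
theorem invCor (hRes : InvResStatement) (hPer : InvPeriodStatement)
    (hDesc : InvDescendStatement) (hMul : InvMulStatement) : InvCorStatement := by
  intro p _ q _ E E' h hE hE' cor hM _hC hB hR n c' j _hc'lvl _hc'coc hc'
  have hp : p.Prime := Fact.out
  set d : ℕ := IntermediateField.relfinrank E E' with hd
  have hd0 : d ≠ 0 := relfinrank_ne_zero_of_isLocalFinite h hE hE'
  obtain ⟨a, t, hat⟩ := exists_exponents p n d hd0
  have hm1 : 0 < p ^ (n + a) := pow_pos hp.pos _
  have hpn : 0 < p ^ n := pow_pos hp.pos _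
  obtain ⟨π, hπ⟩ := exists_unif_unit hE
  obtain ⟨φ, hφ⟩ := exists_isFrobE hE hm1
  set u := unramCocycle q E (p ^ (n + a)) φ π with hu
  set k : ℤ := j * t with hk
  set c : E.fixingSubgroup × E.fixingSubgroup → Qbˣ := fun x => u x ^ k with hc
  have hclvl : IsLvlFun₂ (lvlE E) c := isLvlFun₂_zpow _ (isLvlFun₂_unramCocycle hφ π) k
  have hccoc : IsMulCocycle₂E E c := isMulCocycle₂E_zpow (isMulCocycle₂E_unramCocycle hφ π) k
  have h1 : HasInv q E c k (p ^ (n + a)) := hasInv_unramCocycle_zpow hφ π hπ k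
  -- the restriction of `c` has invariant `j / p ^ n`
  have h2 : HasInv q E' (resCochain₂ h c) ((d : ℤ) * k) (p ^ (n + a)) :=
    hRes q E E' h hE hE' _ c k h1
  have hdiv : ((p ^ (n + a) : ℕ) : ℤ) ∣ (d : ℤ) * k - j * ((p ^ a : ℕ) : ℤ) := by
    obtain ⟨z, hz⟩ := hat
    refine ⟨j * z, ?_⟩
    push_cast at hz ⊢
    rw [hk]
    linear_combination j * hz
  have h4 : HasInv q E' (resCochain₂ h c) (j * ((p ^ a : ℕ) : ℤ)) (p ^ n * p ^ a) := by
    have := hPer q E' hE' _ (resCochain₂ h c) _ _ h2 hdiv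
    rwa [pow_add] at this
  have h5 : HasInv q E' (resCochain₂ h c) j (p ^ n) :=
    hDesc q E' hE' (p ^ n) (p ^ a) hpn _ j h4
  -- `c' / res c` is a level coboundary
  have h6 : HasInv q E' (fun x => c' x * (resCochain₂ h c x)⁻¹) (j + -j) (p ^ n) :=
    hMul q E' hE' _ c' _ j (-j) hc' (hasInv_inv h5)
  rw [add_neg_cancel] at h6
  have h7 : IsLvlMulCoboundary₂E E' (fun x => c' x * (resCochain₂ h c x)⁻¹) :=
    (hasInv_zero_iff hE' hpn _).mp h6
  have h8 := hB _ h7
  have h9 : cor c' = fun x => cor (fun y => c' y * (resCochain₂ h c y)⁻¹) x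
      * cor (resCochain₂ h c) x := by
    rw [← hM]
    congr 1
    funext x
    rw [inv_mul_cancel_right]
  have h10 := hR c hclvl hccoc
  -- the invariant of `c ^ d`
  have h11 : HasInv q E (fun x => c x ^ d) (k * (d : ℤ)) (p ^ (n + a)) := by
    have e : (fun x => c x ^ d) = fun x => u x ^ (k * (d : ℤ)) := by
      funext x
      rw [hc, zpow_mul, zpow_natCast]
    rw [e]
    exact hasInv_unramCocycle_zpow hφ π hπ _
  have hdiv' : ((p ^ (n + a) : ℕ) : ℤ) ∣ k * (d : ℤ) - j * ((p ^ a : ℕ) : ℤ) := by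
    rw [mul_comm k]
    exact hdiv
  have h12 : HasInv q E (fun x => c x ^ d) (j * ((p ^ a : ℕ) : ℤ)) (p ^ n * p ^ a) := by
    have := hPer q E hE _ (fun x => c x ^ d) _ _ h11 hdiv'
    rwa [pow_add] at this
  have h13 : HasInv q E (fun x => c x ^ d) j (p ^ n) :=
    hDesc q E hE (p ^ n) (p ^ a) hpn _ j h12
  have h14 : cor c' = fun x =>
      (cor (fun y => c' y * (resCochain₂ h c y)⁻¹) x * (cor (resCochain₂ h c) x / c x ^ d))
        * c x ^ d := by
    rw [h9]
    funext x
    rw [mul_assoc, div_mul_cancel]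
  rw [h14]
  exact hasInv_mul_coboundary h13 (h8.mul h10)

end Fermat.Agent.H12.CftInv

end
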